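import Fermat.Agent.GT.Val.Defs
import Fermat.Agent.GT.Abs.Basic

/-! GT-VAL, abstract layer, file Tower/Basic: elementary facts (each a few lines). -/

set_option autoImplicit false

namespace Fermat.Agent.GT.Val

open Fermat.Agent.GR.E Fermat.Agent.GS Fermat.Agent.GT

variable {R : Type*} [CommRing R] [IsDomain R] [IsDiscreteValuationRing R]
variable {F0 F : Type*} [Field F0] [Field F] [Algebra R F0] [Algebra R F] [Algebra F0 F]
  [IsScalarTower R F0 F] {ι : Type*}
variable {ϖ : R} {𝒪0 : ValuationSubring F0} {𝒪 : ι → ValuationSubring F}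

/-- auxiliary: the map induced by an `R`-algebra map on the adjoined algebras. -/
def VTBasic_adjoinMap {F' : Type*} [Field F'] [Algebra R F'] (v : F →ₐ[R] F') (S : Set F) :
    Algebra.adjoin R S →+* Algebra.adjoin R (v '' S) where
  toFun a := ⟨v (a : F), by
    rw [← AlgHom.map_adjoin]
    exact ⟨a, a.2, rfl⟩⟩
  map_one' := by apply Subtype.ext; simp
  map_mul' := by intro a b; apply Subtype.ext; simp
  map_zero' := by apply Subtype.ext; simp
  map_add' := by intro a b; apply Subtype.ext; simp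

theorem VTBasic_adjoinMap_comp {F' : Type*} [Field F'] [Algebra R F'] (v : F →ₐ[R] F')
    (S : Set F) : (algebraMap (Algebra.adjoin R (v '' S)) F').comp (VTBasic_adjoinMap v S)
      = (v : F →+* F').comp (algebraMap (Algebra.adjoin R S) F) := by
  ext a
  rfl

theorem VTBasic_adjoinMap_surjective {F' : Type*} [Field F'] [Algebra R F'] (v : F →ₐ[R] F')
    (S : Set F) : Function.Surjective (VTBasic_adjoinMap v S) := by
  rintro ⟨b, hb⟩
  rw [← AlgHom.map_adjoin] at hb
  obtain ⟨a, ha, rfl⟩ := hb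
  exact ⟨⟨a, ha⟩, rfl⟩

/-- auxiliary: integrality transported along an `R`-algebra map. -/
theorem VTBasic_map_mem_chart {F' : Type*} [Field F'] [Algebra R F'] (v : F →ₐ[R] F') {S : Set F}
    {x : F} (hx : x ∈ chart R S) : v x ∈ chart R (v '' S) := by
  rw [mem_chart] at hx ⊢
  exact IsIntegral.map_of_comp_eq (VTBasic_adjoinMap v S) (v : F →+* F')
    (VTBasic_adjoinMap_comp v S) hx

/-- `IntOver` is integrality (for the algebra structure `S → F0 → F`). -/
theorem intOver_iff (S : Subring F0) (z : F) :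
    IntOver S z ↔ ((algebraMap F0 F).comp S.subtype).IsIntegralElem z := by
  constructor
  · rintro ⟨p, hp, hc, hz⟩
    refine ⟨p.toSubring S (fun a ha => ?_), (Polynomial.monic_toSubring p S _).2 hp, ?_⟩
    · obtain ⟨k, -, rfl⟩ := Polynomial.mem_coeffs_iff.1 (Finset.mem_coe.1 ha)
      exact hc k
    · rw [← Polynomial.eval₂_map, Polynomial.map_toSubring]
      exact hz
  · rintro ⟨p, hp, hz⟩
    refine ⟨p.map S.subtype, hp.map _, fun k => ?_, ?_⟩
    · rw [Polynomial.coeff_map]
      exact (p.coeff k).2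
    · rw [Polynomial.aeval_def, Polynomial.eval₂_map]
      exact hz

/-- a chart is contained in every valuation subring containing `R` and the generators. -/
theorem chart_le_valuationSubring (V : ValuationSubring F) (hR : ∀ r : R, algebraMap R F r ∈ V)
    {S : Set F} (hS : ∀ s ∈ S, s ∈ V) {x : F} (hx : x ∈ chart R S) : x ∈ V := by
  rw [mem_chart] at hx
  have hle : ∀ a ∈ Algebra.adjoin R S, a ∈ V := by
    intro a ha
    induction ha using Algebra.adjoin_induction with
    | mem s hs => exact hS s hs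
    | algebraMap r => exact hR r
    | add a b _ _ ha hb => exact add_mem ha hb
    | mul a b _ _ ha hb => exact mul_mem ha hb
  obtain ⟨p, hp, hpx⟩ := hx
  let g : Algebra.adjoin R S →+* V :=
    { toFun := fun a => ⟨(a : F), hle a a.2⟩
      map_one' := rfl
      map_mul' := fun _ _ => rfl
      map_zero' := rfl
      map_add' := fun _ _ => rfl }
  have hint : IsIntegral V x := by
    refine ⟨p.map g, hp.map g, ?_⟩
    rw [Polynomial.eval₂_map]
    exact hpx
  have hcl : IsIntegrallyClosed V := inferInstance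
  obtain ⟨y, hy⟩ := (isIntegrallyClosed_iff F).1 hcl hint
  rw [← hy]
  exact y.2

/-- a chart is integrally closed in `F`. -/
theorem chart_closed (S : Set F) (x : F) (hx : IsIntegral (chart R S) x) : x ∈ chart R S := by
  rw [mem_chart]
  have h1 : IsIntegral (integralClosure (Algebra.adjoin R S) F) x := hx
  have : Algebra.IsIntegral (Algebra.adjoin R S) (integralClosure (Algebra.adjoin R S) F) :=
    inferInstance
  exact isIntegral_trans x h1

theorem subset_chart {S : Set F} {s : F} (hs : s ∈ S) : s ∈ chart R S := by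
  rw [mem_chart]
  have ht : s ∈ Algebra.adjoin R S := Algebra.subset_adjoin hs
  exact (isIntegral_algebraMap (R := Algebra.adjoin R S) (A := F) (x := ⟨s, ht⟩))

/-- monotonicity: if the generators `S` lie in `chart R S'` then `chart R S ≤ chart R S'`. -/
theorem chart_le_chart {S S' : Set F} (h : ∀ s ∈ S, s ∈ chart R S') : chart R S ≤ chart R S' := by
  intro x hx
  apply chart_closed
  rw [mem_chart] at hx
  have hle : Algebra.adjoin R S ≤ chart R S' := Algebra.adjoin_le h
  obtain ⟨p, hp, hpx⟩ := hx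
  refine ⟨p.map (Subalgebra.inclusion hle).toRingHom, hp.map _, ?_⟩
  rw [Polynomial.eval₂_map]
  exact hpx

/-- the image of a chart of `F0` lies in the chart of `F`. -/
theorem algebraMap_mem_chart {t x : F0} (hx : x ∈ chart R ({t} : Set F0)) :
    algebraMap F0 F x ∈ chart R ({algebraMap F0 F t} : Set F) := by
  have := VTBasic_map_mem_chart (IsScalarTower.toAlgHom R F0 F) hx
  rwa [Set.image_singleton] at this

/-- an element of `F` which is integral over the chart of `F0` lies in the chart of `F`. -/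
theorem mem_chart_of_intOver {t : F0} {z : F}
    (hz : IntOver (chart R ({t} : Set F0)).toSubring z) :
    z ∈ chart R ({algebraMap F0 F t} : Set F) := by
  apply chart_closed
  obtain ⟨p, hp, hc, hz⟩ := hz
  have hc' : ∀ k, algebraMap F0 F (p.coeff k) ∈ chart R ({algebraMap F0 F t} : Set F) :=
    fun k => algebraMap_mem_chart (hc k)
  have hsub : (↑(p.map (algebraMap F0 F)).coeffs : Set F)
      ⊆ (chart R ({algebraMap F0 F t} : Set F)).toSubring := by
    intro a ha
    obtain ⟨k, -, rfl⟩ := Polynomial.mem_coeffs_iff.1 (Finset.mem_coe.1 ha)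
    rw [Polynomial.coeff_map]
    exact hc' k
  refine ⟨(p.map (algebraMap F0 F)).toSubring _ hsub,
    (Polynomial.monic_toSubring _ _ _).2 (hp.map _), ?_⟩
  have e : Polynomial.eval₂ (chart R ({algebraMap F0 F t} : Set F)).toSubring.subtype z
      ((p.map (algebraMap F0 F)).toSubring _ hsub) = 0 := by
    rw [← Polynomial.eval_map, Polynomial.map_toSubring, Polynomial.eval_map]
    exact hz
  exact e

/-- conversely -/
theorem intOver_of_mem_chart {t : F0} {z : F}
    (hz : z ∈ chart R ({algebraMap F0 F t} : Set F)) :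
    IntOver (chart R ({t} : Set F0)).toSubring z := by
  rw [mem_chart] at hz
  obtain ⟨p, hp, hpz⟩ := hz
  have hz' : z ∈ chart R ((IsScalarTower.toAlgHom R F0 F) '' ({t} : Set F0)) := by
    rw [Set.image_singleton]
    exact ⟨p, hp, hpz⟩
  obtain ⟨p, hp, hpz⟩ := hz'
  have hl : p ∈ Polynomial.lifts (VTBasic_adjoinMap (IsScalarTower.toAlgHom R F0 F) {t}) := by
    rw [Polynomial.mem_lifts]
    exact Polynomial.map_surjective _ (VTBasic_adjoinMap_surjective _ _) p
  obtain ⟨p', hp', -, hmon⟩ := Polynomial.lifts_and_natDegree_eq_and_monic hl hp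
  refine ⟨p'.map (algebraMap (Algebra.adjoin R ({t} : Set F0)) F0), hmon.map _, fun k => ?_, ?_⟩
  · rw [Polynomial.coeff_map]
    exact isIntegral_algebraMap (R := Algebra.adjoin R ({t} : Set F0)) (A := F0)
  · rw [Polynomial.aeval_def, Polynomial.eval₂_map]
    have e := VTBasic_adjoinMap_comp (IsScalarTower.toAlgHom R F0 F) ({t} : Set F0)
    have e' : (algebraMap F0 F).comp (algebraMap (Algebra.adjoin R ({t} : Set F0)) F0)
        = (algebraMap (Algebra.adjoin R ((IsScalarTower.toAlgHom R F0 F) '' ({t} : Set F0))) F).comp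
          (VTBasic_adjoinMap (IsScalarTower.toAlgHom R F0 F) {t}) := e.symm
    rw [e', ← Polynomial.eval₂_map, hp']
    exact hpz

/-- a ring homomorphism which is `R`-linear maps charts to charts. -/
theorem map_mem_chart {F' : Type*} [Field F'] [Algebra R F'] (v : F →ₐ[R] F') {S : Set F} {x : F}
    (hx : x ∈ chart R S) : v x ∈ chart R (v '' S) := by
  exact VTBasic_map_mem_chart v hx

theorem VTower.algebraMap_mem (T : VTower ϖ 𝒪0 𝒪) (hR : ∀ r : R, algebraMap R F0 r ∈ 𝒪0) (i : ι)
    (r : R) : algebraMap R F r ∈ 𝒪 i := by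
  rw [IsScalarTower.algebraMap_apply R F0 F, T.comap]
  exact hR r

/-- `x ∈ 𝔪(𝒪0) ↔ x ∈ 𝔪(𝒪 i)`. -/
theorem VTower.mem_nonunits_iff (T : VTower ϖ 𝒪0 𝒪) (i : ι) (x : F0) :
    algebraMap F0 F x ∈ (𝒪 i).nonunits ↔ x ∈ 𝒪0.nonunits := by
  rw [ValuationSubring.mem_nonunits_iff_or, ValuationSubring.mem_nonunits_iff_or, ← map_inv₀,
    T.comap, map_eq_zero]

/-- in a Gauss ring `𝔪 = ϖ 𝒪`. -/
theorem gaussRing_mem_nonunits_iff {V : ValuationSubring F} (hG : GaussRing ϖ V) (x : F) :
    x ∈ V.nonunits ↔ x / algebraMap R F ϖ ∈ V := by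
  have h0 := hG.ne_zero
  constructor
  · intro hx
    have hxV : x ∈ V := ValuationSubring.nonunits_subset hx
    rcases (ValuationSubring.mem_nonunits_iff_or V).1 hx with rfl | hx'
    · rw [zero_div]
      exact V.zero_mem
    · rcases hG.unif x hxV with h | h
      · exact h
      · exact absurd h hx'
  · intro hx
    rw [ValuationSubring.mem_nonunits_iff_or]
    by_cases hx0 : x = 0
    · exact Or.inl hx0
    · refine Or.inr fun hinv => hG.inv_not_mem ?_
      have : (algebraMap R F ϖ)⁻¹ = x / algebraMap R F ϖ * x⁻¹ := by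
        field_simp
      rw [this]
      exact mul_mem hx hinv

theorem VTower.unif_mem_nonunits (T : VTower ϖ 𝒪0 𝒪) (i : ι) :
    algebraMap R F ϖ ∈ (𝒪 i).nonunits := by
  rw [IsScalarTower.algebraMap_apply R F0 F, T.mem_nonunits_iff,
    ValuationSubring.mem_nonunits_iff_or]
  exact Or.inr T.gauss0.inv_not_mem

/-- for every `x` some `ϖ ^ a * x` lies in `𝒪 i` (apply `disc` to `x⁻¹`). -/
theorem VTower.exists_pow_mul_mem (T : VTower ϖ 𝒪0 𝒪) (i : ι) (x : F) :
    ∃ a : ℕ, algebraMap R F ϖ ^ a * x ∈ 𝒪 i := by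
  by_cases hx : x = 0
  · exact ⟨0, by rw [hx, mul_zero]; exact (𝒪 i).zero_mem⟩
  · obtain ⟨a, ha⟩ := T.disc i x⁻¹ (inv_ne_zero hx)
    refine ⟨a, ?_⟩
    rcases (𝒪 i).mem_or_inv_mem (x⁻¹ / algebraMap R F ϖ ^ a) with h | h
    · exact absurd h ha
    · rw [inv_div, div_inv_eq_mul] at h
      exact h

theorem VTower.vertFam (T : VTower ϖ 𝒪0 𝒪) : VertFam ϖ 𝒪 := by
  refine ⟨?_, T.unif_mem_nonunits, T.nilp⟩
  rw [IsScalarTower.algebraMap_apply R F0 F]
  exact (map_ne_zero _).2 T.gauss0.ne_zero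

theorem VChart.algebraMap_mem0 {t : F0} (Ct : VChart ϖ 𝒪0 𝒪 t) (r : R) :
    algebraMap R F0 r ∈ 𝒪0 := by
  exact Ct.good.le _ (Subalgebra.algebraMap_mem _ r)

theorem VChart.le (T : VTower ϖ 𝒪0 𝒪) {t : F0} (Ct : VChart ϖ 𝒪0 𝒪 t) :
    ∀ i, ∀ x ∈ chart R ({algebraMap F0 F t} : Set F), x ∈ 𝒪 i := by
  intro i x hx
  refine chart_le_valuationSubring (𝒪 i) (T.algebraMap_mem Ct.algebraMap_mem0 i) ?_ hx
  intro s hs
  rw [Set.mem_singleton_iff.1 hs, T.comap]
  exact Ct.good.le _ (subset_chart rfl)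

/-- `F0` is the fraction field of a good chart. -/
theorem isFractionRing_of_goodChart {C : Subalgebra R F0} (hC : GoodChart ϖ 𝒪0 C) :
    IsFractionRing C F0 := by
  refine IsFractionRing.of_field C F0 fun z => ?_
  have key : ∀ x ∈ 𝒪0, ∃ a b : C, (b : F0) ≠ 0 ∧ x = (a : F0) / (b : F0) := by
    intro x hx
    obtain ⟨b, hb, hb', hxb⟩ := hC.frac x hx
    have hb0 : b ≠ 0 := by
      rintro rfl
      exact hb' (by simp)
    exact ⟨⟨x * b, hxb⟩, ⟨b, hb⟩, hb0, by field_simp⟩
  rcases 𝒪0.mem_or_inv_mem z with hz | hz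
  · obtain ⟨a, b, _, h⟩ := key z hz
    exact ⟨a, b, h⟩
  · obtain ⟨a, b, _, h⟩ := key z⁻¹ hz
    refine ⟨b, a, ?_⟩
    have : z = ((a : F0) / (b : F0))⁻¹ := by rw [← h, inv_inv]
    rw [this, inv_div]
    rfl

theorem satChart_sat_pow {C : Subalgebra R F0} (hC : SatChart ϖ 𝒪0 C) (m : ℕ) {x : F0}
    (hx : x ∈ C) (h : x / algebraMap R F0 ϖ ^ m ∈ 𝒪0) : x / algebraMap R F0 ϖ ^ m ∈ C := by
  exact hC.sat_pow m hx h

end Fermat.Agent.GT.Val
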