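import Fermat.Agent.GT.Val.Tower.Sat

/-! GT-VAL, abstract layer, file Tower/Frac: the field `frac` of `MultiChart`.

`exists_unit_mul_mem`: `y ∈ ⋂ 𝒪 j` is a root of a monic `p` with coefficients `c_k ∈ 𝒪0`
(`T.integral`); `good.frac` gives `b_k ∈ C0`, units of `𝒪0`, with `c_k b_k ∈ C0`; `d = ∏ b_k`; then
`d y` is a root of the monic polynomial with coefficients `d^(n-k) c_k ∈ C0`
(`Polynomial.scaleRoots`), so `d y ∈ C` (`mem_chart_of_intOver`).
`exists_sepAll`: product over `j ≠ i` of the elements of `Ct.sep`.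
`frac`: `x ∈ 𝒪 i`; for `j ≠ i` `ϖ^a x ∈ 𝒪 j` (`exists_pow_mul_mem`) and `E^e / ϖ ∈ 𝒪 j` (`T.nilp`), so
`y = E^m x ∈ ⋂ 𝒪 j` for `m` large; `b = d E^m`. -/

set_option autoImplicit false

namespace Fermat.Agent.GT.Val

open Fermat.Agent.GR.E Fermat.Agent.GS Fermat.Agent.GT

variable {R : Type*} [CommRing R] [IsDomain R] [IsDiscreteValuationRing R]
variable {F0 F : Type*} [Field F0] [Field F] [Algebra R F0] [Algebra R F] [Algebra F0 F]
  [IsScalarTower R F0 F] {ι : Type*}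
variable {ϖ : R} {𝒪0 : ValuationSubring F0} {𝒪 : ι → ValuationSubring F}

/-! ### valuation subrings: units and non-units -/

theorem Frac_nonunits_mul_mem {K : Type*} [Field K] (V : ValuationSubring K) {x y : K}
    (hx : x ∈ V.nonunits) (hy : y ∈ V) : x * y ∈ V.nonunits := by
  rw [ValuationSubring.mem_nonunits_iff] at hx ⊢
  rw [← ValuationSubring.valuation_le_one_iff] at hy
  rw [map_mul]
  calc V.valuation x * V.valuation y ≤ V.valuation x * 1 := by gcongr
    _ = V.valuation x := mul_one _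
    _ < 1 := hx

theorem Frac_valuation_eq_one {K : Type*} [Field K] (V : ValuationSubring K) {x : K}
    (hx : x ∈ V) (hx' : x ∉ V.nonunits) : V.valuation x = 1 := by
  rw [ValuationSubring.mem_nonunits_iff, not_lt] at hx'
  rw [← ValuationSubring.valuation_le_one_iff] at hx
  exact le_antisymm hx hx'

theorem Frac_not_mem_nonunits_of_valuation {K : Type*} [Field K] (V : ValuationSubring K) {x : K}
    (hx : V.valuation x = 1) : x ∉ V.nonunits := by
  rw [ValuationSubring.mem_nonunits_iff, hx]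
  exact lt_irrefl _

theorem Frac_prod_not_mem_nonunits {K : Type*} [Field K] (V : ValuationSubring K) {κ : Type*}
    (s : Finset κ) (f : κ → K) (h : ∀ k ∈ s, f k ∈ V ∧ f k ∉ V.nonunits) :
    ∏ k ∈ s, f k ∉ V.nonunits := by
  apply Frac_not_mem_nonunits_of_valuation
  rw [map_prod]
  exact Finset.prod_eq_one fun k hk => Frac_valuation_eq_one V (h k hk).1 (h k hk).2

theorem Frac_inv_mem {K : Type*} [Field K] (V : ValuationSubring K) {x : K}
    (hx : x ∈ V) (hx' : x ∉ V.nonunits) : x⁻¹ ∈ V := by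
  rw [← ValuationSubring.valuation_le_one_iff, map_inv₀, Frac_valuation_eq_one V hx hx', inv_one]

/-! ### the strong form of `exists_unit_mul_mem` -/

theorem Frac_exists_unit (T : VTower ϖ 𝒪0 𝒪) {t : F0} (Ct : VChart ϖ 𝒪0 𝒪 t) (c : F0)
    (hc : c ∈ 𝒪0) :
    ∃ b ∈ chart R ({t} : Set F0), b ∉ 𝒪0.nonunits ∧ c * b ∈ chart R ({t} : Set F0) := by
  obtain ⟨b, hb, hb1, hb2⟩ := Ct.good.frac c hc
  refine ⟨b, hb, ?_, hb2⟩
  rw [gaussRing_mem_nonunits_iff T.gauss0]
  exact hb1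

theorem Frac_exists_unit_mul_mem (T : VTower ϖ 𝒪0 𝒪) {t : F0} (Ct : VChart ϖ 𝒪0 𝒪 t) {y : F}
    (hy : ∀ j, y ∈ 𝒪 j) :
    ∃ d ∈ chart R ({t} : Set F0), d ∉ 𝒪0.nonunits ∧
      algebraMap F0 F d * y ∈ chart R ({algebraMap F0 F t} : Set F) := by
  classical
  obtain ⟨p, hp, hc, hpy⟩ := T.integral y hy
  have hc' : ∀ k, p.coeff k ∈ 𝒪0 := hc
  choose b hb hb1 hb2 using fun k => Frac_exists_unit T Ct (p.coeff k) (hc' k)
  set n := p.natDegree with hn
  set d : F0 := ∏ k ∈ Finset.range n, b k with hd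
  have hdC : d ∈ chart R ({t} : Set F0) := Subalgebra.prod_mem _ fun k _ => hb k
  refine ⟨d, hdC, ?_, ?_⟩
  · exact Frac_prod_not_mem_nonunits 𝒪0 _ _ fun k _ => ⟨Ct.good.le _ (hb k), hb1 k⟩
  · apply mem_chart_of_intOver
    refine ⟨p.scaleRoots d, (Polynomial.monic_scaleRoots_iff d).2 hp, fun k => ?_,
      Polynomial.scaleRoots_aeval_eq_zero hpy⟩
    change (p.scaleRoots d).coeff k ∈ chart R ({t} : Set F0)
    rw [Polynomial.coeff_scaleRoots]
    rcases lt_trichotomy k n with hk | hk | hk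
    · have h1 : p.coeff k * d ∈ chart R ({t} : Set F0) := by
        rw [hd, ← Finset.mul_prod_erase _ _ (Finset.mem_range.2 hk), ← mul_assoc]
        exact mul_mem (hb2 k) (Subalgebra.prod_mem _ fun j _ => hb j)
      obtain ⟨m, hm⟩ : ∃ m, p.natDegree - k = m + 1 := ⟨n - k - 1, by omega⟩
      rw [hm, pow_succ', ← mul_assoc]
      exact mul_mem h1 (pow_mem hdC m)
    · rw [hk, hn, Nat.sub_self, pow_zero, mul_one, Polynomial.coeff_natDegree, hp.leadingCoeff]
      exact one_mem _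
    · rw [Polynomial.coeff_eq_zero_of_natDegree_lt hk, zero_mul]
      exact zero_mem _

theorem VChart.exists_unit_mul_mem (T : VTower ϖ 𝒪0 𝒪) {t : F0} (Ct : VChart ϖ 𝒪0 𝒪 t) {y : F}
    (hy : ∀ j, y ∈ 𝒪 j) :
    ∃ d ∈ chart R ({t} : Set F0), d⁻¹ ∈ 𝒪0 ∧
      algebraMap F0 F d * y ∈ chart R ({algebraMap F0 F t} : Set F) := by
  obtain ⟨d, hd, hd1, hd2⟩ := Frac_exists_unit_mul_mem T Ct hy
  exact ⟨d, hd, Frac_inv_mem 𝒪0 (Ct.good.le d hd) hd1, hd2⟩

theorem VChart.exists_sepAll [Finite ι] (T : VTower ϖ 𝒪0 𝒪) {t : F0} (Ct : VChart ϖ 𝒪0 𝒪 t)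
    (i : ι) :
    ∃ E ∈ chart R ({algebraMap F0 F t} : Set F), E ∉ (𝒪 i).nonunits ∧
      ∀ j, j ≠ i → E ∈ (𝒪 j).nonunits := by
  classical
  cases nonempty_fintype ι
  have key : ∀ j, ∃ e ∈ chart R ({algebraMap F0 F t} : Set F),
      (j ≠ i → e ∈ (𝒪 j).nonunits) ∧ e ∉ (𝒪 i).nonunits := by
    intro j
    by_cases hj : j = i
    · refine ⟨1, one_mem _, fun h => absurd hj h, ?_⟩
      exact Frac_not_mem_nonunits_of_valuation _ (map_one _)
    · obtain ⟨e, he, he1, he2⟩ := Ct.sep i j (Ne.symm hj)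
      exact ⟨e, he, fun _ => he1, he2⟩
  choose e he he1 he2 using key
  refine ⟨∏ j, e j, Subalgebra.prod_mem _ fun j _ => he j, ?_, fun j hj => ?_⟩
  · exact Frac_prod_not_mem_nonunits _ _ _ fun j _ => ⟨Ct.le T i _ (he j), he2 j⟩
  · rw [← Finset.mul_prod_erase _ _ (Finset.mem_univ j)]
    refine Frac_nonunits_mul_mem _ (he1 j hj) ?_
    exact Ct.le T j _ (Subalgebra.prod_mem _ fun k _ => he k)

theorem VChart.frac [Finite ι] (T : VTower ϖ 𝒪0 𝒪) {t : F0} (Ct : VChart ϖ 𝒪0 𝒪 t) :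
    ∀ i, ∀ x ∈ 𝒪 i, ∃ b ∈ chart R ({algebraMap F0 F t} : Set F), b ∉ (𝒪 i).nonunits ∧
      x * b ∈ chart R ({algebraMap F0 F t} : Set F) := by
  classical
  cases nonempty_fintype ι
  intro i x hx
  obtain ⟨E, hE, hEi, hEj⟩ := VChart.exists_sepAll T Ct i
  obtain ⟨e, he⟩ := T.nilp
  choose a ha using fun j => T.exists_pow_mul_mem j x
  set N : ℕ := ∑ j, a j with hN
  have hϖ0 : algebraMap R F ϖ ≠ 0 := by
    rw [IsScalarTower.algebraMap_apply R F0 F]
    exact (map_ne_zero _).2 T.gauss0.ne_zero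
  have hϖ : ∀ j, algebraMap R F ϖ ∈ 𝒪 j := fun j =>
    ValuationSubring.nonunits_subset (T.unif_mem_nonunits j)
  have hy : ∀ j, E ^ (e * N) * x ∈ 𝒪 j := by
    intro j
    by_cases hj : j = i
    · subst hj
      exact mul_mem (pow_mem (Ct.le T _ _ hE) _) hx
    · have h1 : a j ≤ N := Finset.single_le_sum (f := a) (fun _ _ => Nat.zero_le _)
        (Finset.mem_univ j)
      obtain ⟨r, hr⟩ := Nat.exists_eq_add_of_le h1
      have h2 : E ^ (e * N) * x = (E ^ e / algebraMap R F ϖ) ^ N * algebraMap R F ϖ ^ r *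
          (algebraMap R F ϖ ^ a j * x) := by
        rw [pow_mul, div_pow, hr, pow_add (algebraMap R F ϖ)]
        field_simp
      rw [h2]
      exact mul_mem (mul_mem (pow_mem (he j E (hEj j hj)) _) (pow_mem (hϖ j) _)) (ha j)
  obtain ⟨d, hd, hd1, hd2⟩ := Frac_exists_unit_mul_mem T Ct hy
  have hdC : algebraMap F0 F d ∈ chart R ({algebraMap F0 F t} : Set F) := algebraMap_mem_chart hd
  refine ⟨algebraMap F0 F d * E ^ (e * N), mul_mem hdC (pow_mem hE _), ?_, ?_⟩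
  · apply Frac_not_mem_nonunits_of_valuation
    have h1 : (𝒪 i).valuation (algebraMap F0 F d) = 1 :=
      Frac_valuation_eq_one _ (Ct.le T i _ hdC) (fun h => hd1 ((T.mem_nonunits_iff i d).1 h))
    have h2 : (𝒪 i).valuation E = 1 := Frac_valuation_eq_one _ (Ct.le T i _ hE) hEi
    rw [map_mul, map_pow, h1, h2, one_pow, one_mul]
  · have : x * (algebraMap F0 F d * E ^ (e * N)) = algebraMap F0 F d * (E ^ (e * N) * x) := by ring
    rw [this]
    exact hd2

end Fermat.Agent.GT.Val
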