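import Fermat.Agent.GT.Val.Defs

/-! GT-VAL, abstract layer, file Tower/Noeth. -/

set_option autoImplicit false

namespace Fermat.Agent.GT.Val

open Fermat.Agent.GR.E

/-- `R[h]` is noetherian (finite type over `R`), the chart is a finite module over it. -/
theorem isNoetherianRing_chart {R : Type*} [CommRing R] [IsNoetherianRing R] {F : Type*} [Field F]
    [Algebra R F] {h : F}
    (hfin : Module.Finite (Algebra.adjoin R ({h} : Set F))
      (integralClosure (Algebra.adjoin R ({h} : Set F)) F)) :
    IsNoetherianRing (chart R ({h} : Set F)) := by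
  have hft : Algebra.FiniteType R (Algebra.adjoin R ({h} : Set F)) :=
    (Subalgebra.fg_iff_finiteType _).mp ⟨{h}, by rw [Finset.coe_singleton]⟩
  have hA : IsNoetherianRing (Algebra.adjoin R ({h} : Set F)) :=
    Algebra.FiniteType.isNoetherianRing R _
  have hB : IsNoetherianRing (integralClosure (Algebra.adjoin R ({h} : Set F)) F) :=
    IsNoetherianRing.of_finite (Algebra.adjoin R ({h} : Set F)) _
  let e : integralClosure (Algebra.adjoin R ({h} : Set F)) F ≃+* chart R ({h} : Set F) :=
    { toFun := fun x => ⟨x.1, x.2⟩
      invFun := fun x => ⟨x.1, x.2⟩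
      left_inv := fun _ => rfl
      right_inv := fun _ => rfl
      map_mul' := fun _ _ => rfl
      map_add' := fun _ _ => rfl }
  exact isNoetherianRing_of_ringEquiv _ e

end Fermat.Agent.GT.Val
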