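import Fermat.Agent.GT.Val.Tower.Ded
import Fermat.Agent.GT.Val.Tower.Frac
import Fermat.Agent.GT.Val.Tower.Noeth

/-! GT-VAL, abstract layer, file Tower/Main: assembly. -/

set_option autoImplicit false

namespace Fermat.Agent.GT.Val

open Fermat.Agent.GR.E Fermat.Agent.GS Fermat.Agent.GT

variable {R : Type*} [CommRing R] [IsDomain R] [IsDiscreteValuationRing R]
variable {F0 F : Type*} [Field F0] [Field F] [Algebra R F0] [Algebra R F] [Algebra F0 F]
  [IsScalarTower R F0 F] {ι : Type*}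
variable {ϖ : R} {𝒪0 : ValuationSubring F0} {𝒪 : ι → ValuationSubring F}

theorem multiChart_of_tower [Finite ι] (hϖ : Irreducible ϖ) (T : VTower ϖ 𝒪0 𝒪) {t : F0}
    (Ct : VChart ϖ 𝒪0 𝒪 t) :
    MultiChart ϖ 𝒪 (chart R ({algebraMap F0 F t} : Set F)) :=
  { Ct.satChartI T with
    noeth := isNoetherianRing_chart Ct.fin
    frac := Ct.frac T
    ded := Ct.ded' hϖ T
    sep := Ct.sep }

end Fermat.Agent.GT.Val
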