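import Fermat.Agent.GT.Val.Tower.Basic

/-! GT-VAL, abstract layer, file Tower/Sat: the chart of `F` is saturated with respect to the family
`𝒪`.

Proof.  `x ∈ C`, `z = x / ϖ ∈ ⋂ 𝒪 i`.  `x` is integral over `C0 = chart R {t}`, which is integrally
closed with fraction field `F0`, so `minpoly F0 x = X^d + a_1 X^(d-1) + ... + a_d` with `a_i ∈ C0`
(`minpoly.isIntegrallyClosed_eq_field_fractions'`).  `minpoly F0 z` is
`X^d + (a_1/ϖ) X^(d-1) + ... + a_d/ϖ^d`; by `T.integral` `z` is integral over the valuation ring `𝒪0`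
(integrally closed, fraction field `F0`), so `a_i / ϖ^i ∈ 𝒪0`, hence `∈ C0` by `satChart_sat_pow`.
So `z` is integral over `C0`: `mem_chart_of_intOver`.
(Same proof as `GS/Tower/Sat.lean` of helper30's skeleton, which has two valuations.) -/

set_option autoImplicit false

namespace Fermat.Agent.GT.Val

open Fermat.Agent.GR.E Fermat.Agent.GS Fermat.Agent.GT

variable {R : Type*} [CommRing R] [IsDomain R] [IsDiscreteValuationRing R]
variable {F0 F : Type*} [Field F0] [Field F] [Algebra R F0] [Algebra R F] [Algebra F0 F]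
  [IsScalarTower R F0 F] {ι : Type*}
variable {ϖ : R} {𝒪0 : ValuationSubring F0} {𝒪 : ι → ValuationSubring F}

/-- a monic divisor of a monic polynomial with coefficients in an integrally closed subring has
its coefficients in that subring. -/
theorem sat_coeff_mem_range {K : Type*} [Field K] {A : Type*} [CommRing A] [Algebra A K]
    (hA : ∀ y : K, IsIntegral A y → y ∈ (algebraMap A K).range) {p q : Polynomial K}
    (hp : p.Monic) (hpA : ∀ k, p.coeff k ∈ (algebraMap A K).range) (hq : q.Monic) (hqp : q ∣ p)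
    (i : ℕ) : q.coeff i ∈ (algebraMap A K).range := by
  have hlifts : p ∈ Polynomial.lifts (algebraMap A K) :=
    (Polynomial.lifts_iff_coeff_lifts p).mpr fun k => hpA k
  obtain ⟨p', hp'p, -, hp'monic⟩ := Polynomial.lifts_and_natDegree_eq_and_monic hlifts hp
  exact hA _ (Polynomial.isIntegral_coeff_of_dvd p' q hp'monic hq (by rw [hp'p]; exact hqp) i)

theorem VChart.sat (T : VTower ϖ 𝒪0 𝒪) {t : F0}
    (hgood : GoodChart ϖ 𝒪0 (chart R ({t} : Set F0))) {x : F}
    (hx : x ∈ chart R ({algebraMap F0 F t} : Set F))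
    (h : ∀ i, x / algebraMap R F ϖ ∈ 𝒪 i) :
    x / algebraMap R F ϖ ∈ chart R ({algebraMap F0 F t} : Set F) := by
  set C0 : Subalgebra R F0 := chart R ({t} : Set F0) with hC0
  set c : F0 := algebraMap R F0 ϖ with hc
  have hc0 : c ≠ 0 := T.gauss0.ne_zero
  have hcF : algebraMap R F ϖ = algebraMap F0 F c := IsScalarTower.algebraMap_apply R F0 F ϖ
  have hcF0 : algebraMap F0 F c ≠ 0 := by
    rw [Ne, map_eq_zero]; exact hc0
  set z : F := x / algebraMap R F ϖ with hz
  have hxz : x = c • z := by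
    rw [Algebra.smul_def, hz, hcF]
    field_simp
  obtain ⟨pz, hpzm, hpzc, hpz0⟩ := T.integral z h
  obtain ⟨px, hpxm, hpxc, hpx0⟩ := intOver_of_mem_chart (R := R) hx
  have hzint : IsIntegral F0 z := ⟨pz, hpzm, by rwa [← Polynomial.aeval_def]⟩
  set m : Polynomial F0 := minpoly F0 z with hm
  have hmm : m.Monic := minpoly.monic hzint
  -- the coefficients of `m` lie in `𝒪0`
  have h1 : ∀ i, m.coeff i ∈ 𝒪0 := by
    intro i
    have := sat_coeff_mem_range (A := 𝒪0) (K := F0)
      (fun y hy => by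
        obtain ⟨a, ha⟩ := IsIntegrallyClosed.isIntegral_iff.1 hy
        exact ⟨a, ha⟩)
      hpzm (fun k => ⟨⟨_, hpzc k⟩, rfl⟩) hmm (minpoly.dvd F0 z hpz0) i
    obtain ⟨a, ha⟩ := this
    rw [← ha]
    exact a.2
  -- the coefficients of `minpoly F0 x` lie in `C0`
  have hmx : minpoly F0 x = m.scaleRoots c := by
    rw [hxz]
    exact IsIntegrallyClosed.minpoly_smul hc0 hzint
  have h2 : ∀ i, (m.scaleRoots c).coeff i ∈ C0 := by
    intro i
    have := sat_coeff_mem_range (A := C0) (K := F0)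
      (fun y hy => ⟨⟨y, hgood.closed y hy⟩, rfl⟩)
      hpxm (fun k => ⟨⟨_, hpxc k⟩, rfl⟩) ((Polynomial.monic_scaleRoots_iff c).2 hmm)
      (by rw [← hmx]; exact minpoly.dvd F0 x hpx0) i
    obtain ⟨a, ha⟩ := this
    rw [← ha]
    exact a.2
  -- saturation
  have h3 : ∀ i, m.coeff i ∈ C0 := by
    intro i
    have h4 := h2 i
    rw [Polynomial.coeff_scaleRoots] at h4
    have h5 : m.coeff i * c ^ (m.natDegree - i) / c ^ (m.natDegree - i) = m.coeff i := by
      field_simp
    have := satChart_sat_pow hgood.toSatChart (m.natDegree - i) h4 (by rw [h5]; exact h1 i)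
    rwa [h5] at this
  exact mem_chart_of_intOver (R := R) ⟨m, hmm, h3, minpoly.aeval F0 z⟩

theorem VChart.satChartI (T : VTower ϖ 𝒪0 𝒪) {t : F0} (Ct : VChart ϖ 𝒪0 𝒪 t) :
    SatChartI ϖ 𝒪 (chart R ({algebraMap F0 F t} : Set F)) :=
  ⟨Ct.le T, fun _ hx h => VChart.sat T Ct.good hx h, chart_closed _⟩

end Fermat.Agent.GT.Val
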