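import Fermat.Agent.GT.Val.Tower.IC
import Fermat.Agent.GT.Val.Tower.Sat

/-! GT-VAL, abstract layer, file Tower/Ded: the reduced components `C ⧸ vertI (𝒪 i) C` are Dedekind.

`exists_sub_mem` (K1).  `z ∈ C ⊆ ⋂ 𝒪 j`; `ResEq` gives `f ∈ 𝒪0` with `z ≡ f` mod `𝔪(𝒪 i)`.  `z` is a root
of a monic polynomial `P` with coefficients in `C0` (`intOver_of_mem_chart`), so
`P(f) ≡ P(z) = 0` mod `𝔪(𝒪 i)`, i.e. `P(f) ∈ 𝔪(𝒪0) = ϖ 𝒪0` (`VTower.mem_nonunits_iff`,
`gaussRing_mem_nonunits_iff`).  Apply `exists_sub_div_mem_of_goodChart`.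
`ded_of_resEq`: `C0 → C ⧸ vertI (𝒪 i) C` is surjective by (K1), with kernel `ϖ C0` (`sat` of `C0`);
so `C ⧸ vertI (𝒪 i) C ≃+* C0 ⧸ (ϖ)`, Dedekind by `good.dedekind`.
`ded_of_transp`: `w` induces `C ⧸ vertI (𝒪 i) C ≃+* C ⧸ vertI (𝒪 j) C`. -/

set_option autoImplicit false

namespace Fermat.Agent.GT.Val

open Fermat.Agent.GR.E Fermat.Agent.GS Fermat.Agent.GT

variable {R : Type*} [CommRing R] [IsDomain R] [IsDiscreteValuationRing R]
variable {F0 F : Type*} [Field F0] [Field F] [Algebra R F0] [Algebra R F] [Algebra F0 F]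
  [IsScalarTower R F0 F] {ι : Type*}
variable {ϖ : R} {𝒪0 : ValuationSubring F0} {𝒪 : ι → ValuationSubring F}

/-- transfer of `IsDedekindDomain` along a ring isomorphism. -/
theorem Ded_isDedekindDomain_of_ringEquiv {A B : Type*} [CommRing A] [CommRing B] (e : A ≃+* B)
    (hA : IsDedekindDomain A) : IsDedekindDomain B := by
  have hdom : IsDomain B := e.symm.toMulEquiv.isDomain _
  have hn : IsNoetherianRing B := isNoetherianRing_of_ringEquiv A e
  have hd : Ring.DimensionLEOne B := Ring.DimensionLEOne.of_ringEquiv e.symm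
  have hic : IsIntegrallyClosed B := IsIntegrallyClosed.of_equiv e
  exact { hdom, hn, hd, hic with }

theorem VChart.exists_sub_mem (hϖ : Irreducible ϖ) (T : VTower ϖ 𝒪0 𝒪) {t : F0}
    (Ct : VChart ϖ 𝒪0 𝒪 t) {i : ι} (hi : ResEq 𝒪0 𝒪 i) {z : F}
    (hz : z ∈ chart R ({algebraMap F0 F t} : Set F)) :
    ∃ g ∈ chart R ({t} : Set F0), z - algebraMap F0 F g ∈ (𝒪 i).nonunits := by
  have hzi : z ∈ 𝒪 i := Ct.le T i z hz
  obtain ⟨f, hf, hzf⟩ := hi z (fun j => Ct.le T j z hz)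
  obtain ⟨p, hpm, hpc, hpz⟩ := intOver_of_mem_chart hz
  have hlift : p ∈ Polynomial.lifts (algebraMap (chart R ({t} : Set F0)) F0) := by
    rw [Polynomial.lifts_iff_coeff_lifts]
    intro n
    exact ⟨⟨p.coeff n, hpc n⟩, rfl⟩
  obtain ⟨P, hP, -, hPm⟩ := Polynomial.lifts_and_natDegree_eq_and_monic hlift hpm
  have haf : algebraMap F0 F f ∈ 𝒪 i := (T.comap i f).2 hf
  -- the ring hom `C0 → 𝒪 i`
  let ψ : chart R ({t} : Set F0) →+* 𝒪 i :=
    ((algebraMap F0 F).comp (algebraMap (chart R ({t} : Set F0)) F0)).codRestrict (𝒪 i).toSubring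
      (fun c => (T.comap i (c : F0)).2 (Ct.good.le c c.2))
  have hψ : ((𝒪 i).subtype).comp ψ =
      (algebraMap F0 F).comp (algebraMap (chart R ({t} : Set F0)) F0) := by
    ext c
    rfl
  obtain ⟨s, hs⟩ := Polynomial.sub_dvd_eval_sub (⟨algebraMap F0 F f, haf⟩ : 𝒪 i) ⟨z, hzi⟩ (P.map ψ)
  have hev : ∀ x : 𝒪 i, ((Polynomial.eval x (P.map ψ) : 𝒪 i) : F) =
      Polynomial.eval (x : F) (p.map (algebraMap F0 F)) := by
    intro x
    rw [← hP, Polynomial.map_map, ← hψ, ← Polynomial.map_map]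
    exact (Polynomial.eval_map_apply ((𝒪 i).subtype) x).symm
  have hpz' : Polynomial.eval z (p.map (algebraMap F0 F)) = 0 := by
    rw [Polynomial.eval_map_algebraMap]
    exact hpz
  have hs' : Polynomial.eval (algebraMap F0 F f) (p.map (algebraMap F0 F)) =
      (algebraMap F0 F f - z) * (s : F) := by
    have := congrArg ((𝒪 i).subtype) hs
    rw [map_sub, map_mul, map_sub] at this
    change ((Polynomial.eval (⟨algebraMap F0 F f, haf⟩ : 𝒪 i) (P.map ψ) : 𝒪 i) : F) -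
      ((Polynomial.eval (⟨z, hzi⟩ : 𝒪 i) (P.map ψ) : 𝒪 i) : F) =
        (algebraMap F0 F f - z) * (s : F) at this
    rw [hev, hev, hpz', sub_zero] at this
    exact this
  have hae : algebraMap F0 F (Polynomial.aeval f P) =
      Polynomial.eval (algebraMap F0 F f) (p.map (algebraMap F0 F)) := by
    rw [← hP, Polynomial.eval_map_apply, Polynomial.eval_map_algebraMap]
  have hdiv : Polynomial.aeval f P / algebraMap R F0 ϖ ∈ 𝒪0 := by
    rw [← gaussRing_mem_nonunits_iff T.gauss0, ← T.mem_nonunits_iff i, hae, hs', mul_comm]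
    refine basic_mul_mem_nonunits s.2 ?_
    have : algebraMap F0 F f - z = -(z - algebraMap F0 F f) := by ring
    rw [this]
    exact (𝒪 i).nonunits.neg_mem hzf
  obtain ⟨g, hg, hfg⟩ := exists_sub_div_mem_of_goodChart hϖ T.gauss0 Ct.good hf P hPm hdiv
  refine ⟨g, hg, ?_⟩
  have h1 : algebraMap F0 F (f - g) ∈ (𝒪 i).nonunits :=
    (T.mem_nonunits_iff i _).2 ((gaussRing_mem_nonunits_iff T.gauss0 _).2 hfg)
  have : z - algebraMap F0 F g = (z - algebraMap F0 F f) + algebraMap F0 F (f - g) := by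
    rw [map_sub]; ring
  rw [this]
  exact (𝒪 i).nonunits.add_mem hzf h1

theorem VChart.ded_of_resEq (hϖ : Irreducible ϖ) (T : VTower ϖ 𝒪0 𝒪) {t : F0}
    (Ct : VChart ϖ 𝒪0 𝒪 t) {i : ι} (hi : ResEq 𝒪0 𝒪 i) :
    IsDedekindDomain (chart R ({algebraMap F0 F t} : Set F) ⧸
      vertI (𝒪 i) (chart R ({algebraMap F0 F t} : Set F))) := by
  have hle : ∀ x ∈ chart R ({algebraMap F0 F t} : Set F), x ∈ 𝒪 i := Ct.le T i
  -- the ring hom `C0 → C`
  let ψ : chart R ({t} : Set F0) →+* chart R ({algebraMap F0 F t} : Set F) :=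
    ((algebraMap F0 F).comp (algebraMap (chart R ({t} : Set F0)) F0)).codRestrict
      (chart R ({algebraMap F0 F t} : Set F)).toSubring (fun c => algebraMap_mem_chart c.2)
  have hψ : ∀ c : chart R ({t} : Set F0), ((ψ c : chart R ({algebraMap F0 F t} : Set F)) : F) =
      algebraMap F0 F (c : F0) := fun c => rfl
  let φ : chart R ({t} : Set F0) →+* (chart R ({algebraMap F0 F t} : Set F) ⧸
      vertI (𝒪 i) (chart R ({algebraMap F0 F t} : Set F))) :=
    (Ideal.Quotient.mk _).comp ψ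
  have hsurj : Function.Surjective φ := by
    intro y
    obtain ⟨z, rfl⟩ := Ideal.Quotient.mk_surjective y
    obtain ⟨g, hg, hzg⟩ := Ct.exists_sub_mem hϖ T hi z.2
    refine ⟨⟨g, hg⟩, ?_⟩
    change Ideal.Quotient.mk _ (ψ ⟨g, hg⟩) = Ideal.Quotient.mk _ z
    rw [eq_comm, Ideal.Quotient.eq, mem_vertI hle]
    exact hzg
  have hker : RingHom.ker φ = Ideal.span {algebraMap R (chart R ({t} : Set F0)) ϖ} := by
    ext c
    rw [RingHom.mem_ker]
    change Ideal.Quotient.mk _ (ψ c) = 0 ↔ _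
    rw [Ideal.Quotient.eq_zero_iff_mem, mem_vertI hle, hψ, T.mem_nonunits_iff i,
      gaussRing_mem_nonunits_iff T.gauss0, Ideal.mem_span_singleton]
    constructor
    · intro h
      refine ⟨⟨_, Ct.good.sat c c.2 h⟩, ?_⟩
      apply Subtype.ext
      change (c : F0) = algebraMap R F0 ϖ * ((c : F0) / algebraMap R F0 ϖ)
      rw [mul_div_cancel₀ _ T.gauss0.ne_zero]
    · rintro ⟨d, rfl⟩
      have : (((algebraMap R (chart R ({t} : Set F0)) ϖ * d : chart R ({t} : Set F0))) : F0) /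
          algebraMap R F0 ϖ = (d : F0) := by
        change algebraMap R F0 ϖ * (d : F0) / algebraMap R F0 ϖ = (d : F0)
        rw [mul_div_cancel_left₀ _ T.gauss0.ne_zero]
      rw [this]
      exact Ct.good.le d d.2
  have e1 := RingHom.quotientKerEquivOfSurjective hsurj
  have e2 := Ideal.quotEquivOfEq hker
  exact Ded_isDedekindDomain_of_ringEquiv (e2.symm.trans e1) Ct.good.dedekind

omit [IsDomain R] [IsDiscreteValuationRing R] in
/-- `GT.mem_vertI` without the hypotheses on `R`. -/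
theorem Ded_mem_vertI {V : ValuationSubring F} {C : Subalgebra R F} (hle : ∀ x ∈ C, x ∈ V)
    (x : C) : x ∈ vertI V C ↔ (x : F) ∈ V.nonunits := by
  constructor
  · intro hx
    refine Submodule.span_induction (p := fun (y : C) _ => (y : F) ∈ V.nonunits)
      (fun y hy => hy) ?_ ?_ ?_ hx
    · exact V.nonunits.zero_mem
    · intro y z _ _ hy hz
      exact V.nonunits.add_mem hy hz
    · intro a y _ hy
      exact basic_mul_mem_nonunits (hle _ a.2) hy
  · intro hx
    exact Ideal.subset_span hx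

omit [IsDomain R] [IsDiscreteValuationRing R] in
theorem ded_of_transp {C : Subalgebra R F} (hle : ∀ i, ∀ x ∈ C, x ∈ 𝒪 i) {i j : ι}
    (h : Transp 𝒪 C i j) (hj : IsDedekindDomain (C ⧸ vertI (𝒪 j) C)) :
    IsDedekindDomain (C ⧸ vertI (𝒪 i) C) := by
  obtain ⟨w, hw, hwC, hwC'⟩ := h
  have hnon : ∀ x : F, x ∈ (𝒪 i).nonunits ↔ w x ∈ (𝒪 j).nonunits := by
    intro x
    rw [ValuationSubring.mem_nonunits_iff_or, ValuationSubring.mem_nonunits_iff_or, hw, map_inv₀,
      map_eq_zero_iff w w.injective]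
  let wC : C ≃+* C :=
    { toFun := fun x => ⟨w x, hwC x x.2⟩
      invFun := fun x => ⟨w.symm x, hwC' x x.2⟩
      left_inv := fun x => Subtype.ext (w.symm_apply_apply x)
      right_inv := fun x => Subtype.ext (w.apply_symm_apply x)
      map_mul' := fun x y => Subtype.ext (map_mul w (x : F) (y : F))
      map_add' := fun x y => Subtype.ext (map_add w (x : F) (y : F)) }
  have hIJ : vertI (𝒪 j) C = (vertI (𝒪 i) C).map (wC : C →+* C) := by
    ext y
    rw [Ded_mem_vertI (hle j)]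
    constructor
    · intro hy
      have h1 : wC.symm y ∈ vertI (𝒪 i) C := by
        rw [Ded_mem_vertI (hle i), hnon]
        change w (w.symm (y : F)) ∈ _
        rwa [w.apply_symm_apply]
      have h2 := Ideal.mem_map_of_mem (wC : C →+* C) h1
      have h3 : (wC : C →+* C) (wC.symm y) = y := wC.apply_symm_apply y
      rwa [h3] at h2
    · intro hy
      obtain ⟨x, hx, rfl⟩ := (Ideal.mem_map_of_equiv wC y).1 hy
      rw [Ded_mem_vertI (hle i), hnon] at hx
      exact hx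
  exact Ded_isDedekindDomain_of_ringEquiv (Ideal.quotientEquiv _ _ wC hIJ).symm hj

theorem VChart.ded' (hϖ : Irreducible ϖ) (T : VTower ϖ 𝒪0 𝒪) {t : F0} (Ct : VChart ϖ 𝒪0 𝒪 t)
    (i : ι) :
    IsDedekindDomain (chart R ({algebraMap F0 F t} : Set F) ⧸
      vertI (𝒪 i) (chart R ({algebraMap F0 F t} : Set F))) := by
  rcases Ct.ded i with h | ⟨j, hj, hw⟩
  · exact Ct.ded_of_resEq hϖ T h
  · exact ded_of_transp (Ct.le T) hw (Ct.ded_of_resEq hϖ T hj)

end Fermat.Agent.GT.Val
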