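import Fermat.Agent.GT.Abs.Defs

/-! GT-VAL, abstract layer, file Tower/IC (only the field `F0`): the reduction of a good chart is
integrally closed in the residue field of `𝒪0`.

Proof. `D = C ⧸ (ϖ)` is a Dedekind domain, hence integrally closed.  `κ = 𝒪0 / ϖ 𝒪0` is a field
(`GaussRing.unif`), `D → κ` is injective (`sat`) and `κ = Frac D` (`frac`).  The class of `f` in `κ` is
integral over `D`, so it lies in `D`.
(Same statement as `GS/Tower/IC.lean` of helper30's skeleton.) -/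

set_option autoImplicit false

namespace Fermat.Agent.GT.Val

open Fermat.Agent.GR.E Fermat.Agent.GS Fermat.Agent.GT

variable {R : Type*} [CommRing R] [IsDomain R] [IsDiscreteValuationRing R]
variable {F0 F : Type*} [Field F0] [Field F] [Algebra R F0] [Algebra R F] [Algebra F0 F]
  [IsScalarTower R F0 F] {ι : Type*}
variable {ϖ : R} {𝒪0 : ValuationSubring F0} {𝒪 : ι → ValuationSubring F}

theorem exists_sub_div_mem_of_goodChart (hϖ : Irreducible ϖ) (hG : GaussRing ϖ 𝒪0)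
    {C : Subalgebra R F0} (hC : GoodChart ϖ 𝒪0 C) {f : F0} (hf : f ∈ 𝒪0)
    (P : Polynomial C) (hP : P.Monic)
    (h : Polynomial.aeval f P / algebraMap R F0 ϖ ∈ 𝒪0) :
    ∃ g ∈ C, (f - g) / algebraMap R F0 ϖ ∈ 𝒪0 := by
  classical
  have hπ0 : algebraMap R F0 ϖ ≠ 0 := hG.ne_zero
  have hker : ∀ x : 𝒪0, IsLocalRing.residue 𝒪0 x = 0 ↔ (x : F0) / algebraMap R F0 ϖ ∈ 𝒪0 := by
    intro x
    rw [IsLocalRing.residue_eq_zero_iff, IsLocalRing.mem_maximalIdeal, mem_nonunits_iff]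
    constructor
    · intro hx
      rcases hG.unif x x.2 with h | h
      · exact h
      · by_cases hx0 : (x : F0) = 0
        · rw [hx0, zero_div]
          exact zero_mem _
        · exact absurd (isUnit_iff_exists_inv.2 ⟨⟨_, h⟩, Subtype.ext (mul_inv_cancel₀ hx0)⟩) hx
    · intro h hu
      obtain ⟨y, hy⟩ := isUnit_iff_exists_inv.1 hu
      apply hG.inv_not_mem
      have hy' : (x : F0) * (y : F0) = 1 := congrArg Subtype.val hy
      have : (algebraMap R F0 ϖ)⁻¹ = (x : F0) / algebraMap R F0 ϖ * y := by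
        rw [div_mul_eq_mul_div, hy', one_div]
      rw [this]
      exact mul_mem h y.2
  let incl : C →+* 𝒪0 := (C.val.toRingHom).codRestrict 𝒪0.toSubring (fun x => hC.le _ x.2)
  let φ : C →+* IsLocalRing.ResidueField 𝒪0 := (IsLocalRing.residue 𝒪0).comp incl
  have hφ' : ∀ x : C, φ x = 0 ↔ (x : F0) / algebraMap R F0 ϖ ∈ 𝒪0 := fun x => hker (incl x)
  have hφ : ∀ x : C, φ x = 0 ↔ x ∈ Ideal.span {algebraMap R C ϖ} := by
    intro x
    rw [hφ', Ideal.mem_span_singleton]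
    constructor
    · intro h
      refine ⟨⟨_, hC.sat _ x.2 h⟩, Subtype.ext ?_⟩
      change (x : F0) = algebraMap R F0 ϖ * ((x : F0) / algebraMap R F0 ϖ)
      field_simp
    · rintro ⟨y, rfl⟩
      have : ((algebraMap R C ϖ * y : C) : F0) / algebraMap R F0 ϖ = y := by
        change algebraMap R F0 ϖ * (y : F0) / algebraMap R F0 ϖ = y
        field_simp
      rw [this]
      exact hC.le _ y.2
  let ψ : (C ⧸ Ideal.span {algebraMap R C ϖ}) →+* IsLocalRing.ResidueField 𝒪0 :=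
    Ideal.Quotient.lift _ φ (fun x hx => (hφ x).2 hx)
  have hψinj : Function.Injective ψ := by
    rw [injective_iff_map_eq_zero]
    intro x hx
    obtain ⟨c, rfl⟩ := Ideal.Quotient.mk_surjective x
    rw [Ideal.Quotient.eq_zero_iff_mem, ← hφ]
    exact hx
  let _ : Algebra (C ⧸ Ideal.span {algebraMap R C ϖ}) (IsLocalRing.ResidueField 𝒪0) := ψ.toAlgebra
  have : FaithfulSMul (C ⧸ Ideal.span {algebraMap R C ϖ}) (IsLocalRing.ResidueField 𝒪0) :=
    (faithfulSMul_iff_algebraMap_injective _ _).2 hψinj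
  have : IsDedekindDomain (C ⧸ Ideal.span {algebraMap R C ϖ}) := hC.dedekind
  have : IsFractionRing (C ⧸ Ideal.span {algebraMap R C ϖ}) (IsLocalRing.ResidueField 𝒪0) := by
    refine IsFractionRing.of_field _ _ ?_
    intro z
    obtain ⟨x, rfl⟩ := IsLocalRing.residue_surjective z
    obtain ⟨b, hb, hb', hxb⟩ := hC.frac x x.2
    refine ⟨Ideal.Quotient.mk _ ⟨_, hxb⟩, Ideal.Quotient.mk _ ⟨b, hb⟩, ?_⟩
    have hb0 : φ ⟨b, hb⟩ ≠ 0 := fun h0 => hb' ((hφ' ⟨b, hb⟩).1 h0)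
    change IsLocalRing.residue 𝒪0 x = φ ⟨_, hxb⟩ / φ ⟨b, hb⟩
    rw [eq_div_iff hb0]
    change IsLocalRing.residue 𝒪0 x * IsLocalRing.residue 𝒪0 (incl ⟨b, hb⟩) =
      IsLocalRing.residue 𝒪0 (incl ⟨_, hxb⟩)
    rw [← map_mul]
    rfl
  have hint : IsIntegral (C ⧸ Ideal.span {algebraMap R C ϖ})
      (IsLocalRing.residue 𝒪0 ⟨f, hf⟩) := by
    refine ⟨P.map (Ideal.Quotient.mk _), hP.map _, ?_⟩
    rw [Polynomial.eval₂_map]
    have h1 : (algebraMap (C ⧸ Ideal.span {algebraMap R C ϖ}) (IsLocalRing.ResidueField 𝒪0)).comp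
        (Ideal.Quotient.mk _) = (IsLocalRing.residue 𝒪0).comp incl := rfl
    rw [h1, ← Polynomial.hom_eval₂, hker]
    have h2 : ((Polynomial.eval₂ incl ⟨f, hf⟩ P : 𝒪0) : F0) = Polynomial.aeval f P := by
      have := Polynomial.hom_eval₂ P incl 𝒪0.subtype ⟨f, hf⟩
      exact this
    rw [h2]
    exact h
  obtain ⟨y, hy⟩ := IsIntegrallyClosed.algebraMap_eq_of_integral hint
  obtain ⟨g, rfl⟩ := Ideal.Quotient.mk_surjective y
  refine ⟨g, g.2, ?_⟩
  have h3 : IsLocalRing.residue 𝒪0 (⟨f, hf⟩ - incl g) = 0 := by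
    rw [map_sub, ← hy]
    exact sub_self _
  exact (hker _).1 h3

end Fermat.Agent.GT.Val
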